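import Fermat.Agent.ML.Deg.CommTwo
import Fermat.Agent.RIB.Theta

/-!
# ML / Tower / Def : the ORDER-FREE Taylor–Wiles tower

`XX : ∀ N [NeZero N], AddSubgroup (JZero N)` a family of subgroups (e.g. `thetaPart`), `t : Finset ℕ` a set of primes.

* `IsNewAt N l x` : `x ∈ J₀(N)` is killed by the three push-forwards `Π_l : J₀(N) → J₀(N / l²)` (the level `N` is a VARIABLE:
  the statement is quantified over the equations `N = M * l * l`);
* `newPart XX N t` : the classes of `XX N` which are new at all the `l ∈ t`;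
* `isNewAt_iot`, `isNewAt_Pii`, `isNewAt_of_iota` : stability and (REFLECT) for another prime (from `[COMM]`, `ML/Deg/CommTwo`).
-/

set_option autoImplicit false
set_option linter.unusedSectionVars false
set_option linter.style.haveILetI false

noncomputable section

open AlgebraicCurve ModularCurve

namespace Fermat.Agent.ML.Tower

open Fermat.Agent.RIB Fermat.Agent.GAL Fermat.Agent.GAL.PC

local notation "Qbar" => AlgebraicClosure ℚ
local notation "GQ" => (AlgebraicClosure ℚ ≃ₐ[ℚ] AlgebraicClosure ℚ)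

/-- `x` is new at `l`. -/
def IsNewAt (N l : ℕ) [NeZero N] (x : JZero N) : Prop :=
  ∀ (M : ℕ) [NeZero M] [NeZero l] (h : N = M * l * l) (i : Fin 3), Pii M l i (castJ h x) = 0

theorem isNewAt_mul {M l : ℕ} [NeZero M] [NeZero l] {x : JZero (M * l * l)} :
    IsNewAt (M * l * l) l x ↔ ∀ i, Pii M l i x = 0 := by
  constructor
  · intro h i
    simpa using h M rfl i
  · intro h M' _ _ h' i
    have hl : 0 < l := Nat.pos_of_ne_zero (NeZero.ne l)
    have hM : M = M' := Nat.eq_of_mul_eq_mul_right hl (Nat.eq_of_mul_eq_mul_right hl h')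
    subst hM
    simpa using h i

theorem IsNewAt.zero (N l : ℕ) [NeZero N] : IsNewAt N l (0 : JZero N) := fun M _ _ h i => by
  rw [map_zero, map_zero]

theorem IsNewAt.add {N l : ℕ} [NeZero N] {x y : JZero N} (hx : IsNewAt N l x)
    (hy : IsNewAt N l y) : IsNewAt N l (x + y) := fun M _ _ h i => by
  rw [map_add, map_add, hx M h i, hy M h i, add_zero]

theorem IsNewAt.neg {N l : ℕ} [NeZero N] {x : JZero N} (hx : IsNewAt N l x) :
    IsNewAt N l (-x) := fun M _ _ h i => by
  rw [map_neg, map_neg, hx M h i, neg_zero]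

theorem IsNewAt.smul {N l : ℕ} [NeZero N] {x : JZero N} (hx : IsNewAt N l x) (σ : GQ) :
    IsNewAt N l (σ • x) := fun M _ _ h i => by
  rw [castJ_smul, Pii_smul, hx M h i]
  exact smul_zero (A := JZero M) σ

theorem IsNewAt.hecke {N l p : ℕ} [NeZero N] {x : JZero N} (hx : IsNewAt N l x)
    (hpx : x ∈ ptors (JZero N) p) (r : Nat.Primes) (hr : ¬ (r : ℕ) ∣ N * p) :
    IsNewAt N l (heckeOperatorBar N r x) := fun M _ _ h i => by
  subst h
  rw [castJ_rfl, Pii_hecke i r hr x hpx]
  have := hx M rfl i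
  rw [castJ_rfl] at this
  rw [this, map_zero]

/-- the part of `XX N` which is new at all the primes of `t`. -/
def newPart (XX : ∀ (N : ℕ) [NeZero N], AddSubgroup (JZero N)) (N : ℕ) [NeZero N] (t : Finset ℕ) :
    AddSubgroup (JZero N) where
  carrier := {x | x ∈ XX N ∧ ∀ l ∈ t, IsNewAt N l x}
  zero_mem' := ⟨(XX N).zero_mem, fun l _ => IsNewAt.zero N l⟩
  add_mem' := fun hx hy => ⟨(XX N).add_mem hx.1 hy.1, fun l hl => (hx.2 l hl).add (hy.2 l hl)⟩
  neg_mem' := fun hx => ⟨(XX N).neg_mem hx.1, fun l hl => (hx.2 l hl).neg⟩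

variable {XX : ∀ (N : ℕ) [NeZero N], AddSubgroup (JZero N)}

theorem mem_newPart {N : ℕ} [NeZero N] {t : Finset ℕ} {x : JZero N} :
    x ∈ newPart XX N t ↔ x ∈ XX N ∧ ∀ l ∈ t, IsNewAt N l x := Iff.rfl

theorem newPart_le (N : ℕ) [NeZero N] (t : Finset ℕ) : newPart XX N t ≤ XX N := fun _ h => h.1

theorem newPart_empty (N : ℕ) [NeZero N] : newPart XX N ∅ = XX N := by
  ext x
  simp [mem_newPart]

theorem newPart_mono (N : ℕ) [NeZero N] {t t' : Finset ℕ} (h : t ⊆ t') :
    newPart XX N t' ≤ newPart XX N t := fun _ hx => ⟨hx.1, fun l hl => hx.2 l (h hl)⟩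

theorem mem_newPart_insert {N : ℕ} [NeZero N] {t : Finset ℕ} {l : ℕ} {x : JZero N} :
    x ∈ newPart XX N (insert l t) ↔ x ∈ newPart XX N t ∧ IsNewAt N l x := by
  simp only [mem_newPart, Finset.mem_insert, forall_eq_or_imp]
  tauto

theorem mem_newPart_insert_mul {M l : ℕ} [NeZero M] [NeZero l] {t : Finset ℕ}
    {x : JZero (M * l * l)} :
    x ∈ newPart XX (M * l * l) (insert l t) ↔
      x ∈ newPart XX (M * l * l) t ∧ ∀ i, Pii M l i x = 0 := by
  rw [mem_newPart_insert, isNewAt_mul]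

/-! ### `[COMM]` -/

section Comm

variable {M l l' : ℕ} [NeZero M] [NeZero l] [NeZero l']

/-- `π_j^*` at `l` preserves `new at l'`. -/
theorem isNewAt_iot (hl : l.Prime) (hl' : l'.Prime) (hne : l ≠ l') (j : Fin 3)
    {z : JZero (M * l' * l')} (hz : IsNewAt (M * l' * l') l' z) :
    IsNewAt (M * l' * l' * l * l) l' (iot (M * l' * l') l j z) := by
  intro M' _ _ h i
  have hl0 : 0 < l' := hl'.pos
  have hM : M' = M * l * l := by
    refine Nat.eq_of_mul_eq_mul_right hl0 (Nat.eq_of_mul_eq_mul_right hl0 ?_)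
    rw [← h]; ring
  subst hM
  have h1 := Pii_sw22_iot M hl' hl hne i j z
  rw [isNewAt_mul.1 hz i, map_zero] at h1
  exact h1

/-- `π_{i *}` at `l` preserves `new at l'`. -/
theorem isNewAt_Pii (i : Fin 3) {x : JZero (M * l' * l' * l * l)}
    (hx : IsNewAt (M * l' * l' * l * l) l' x) :
    IsNewAt (M * l' * l') l' (Pii (M * l' * l') l i x) := by
  rw [isNewAt_mul]
  intro j
  have h1 := Pii_Pii_sw22 M l l' i j (sw22 M l' l x)
  rw [sw22_sw22] at h1
  rw [h1, hx (M * l * l) (sw22_lev M l' l) j, map_zero]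

/-- the push-forward at `l'` of an old class at `l`. -/
theorem Pii_sw22_iota (hl : l.Prime) (hl' : l'.Prime) (hne : l ≠ l') (i : Fin 3)
    (v : Fin 3 → JZero (M * l' * l')) :
    Pii (M * l * l) l' i (sw22 M l' l (iota (M * l' * l') l v)) =
      iota M l (fun j => Pii M l' i (v j)) := by
  rw [iota_apply, iota_apply, map_sum, map_sum]
  exact Finset.sum_congr rfl fun j _ => Pii_sw22_iot M hl' hl hne i j (v j)

/-- **(REFLECT)** -/
theorem isNewAt_of_iota (hl : l.Prime) (hl' : l'.Prime) (hne : l ≠ l')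
    (Y : AddSubgroup (JZero M))
    (hinj : ∀ v : Fin 3 → JZero M, (∀ i, v i ∈ Y) → iota M l v = 0 → ∀ i, v i = 0)
    (v : Fin 3 → JZero (M * l' * l')) (hv : ∀ i j, Pii M l' i (v j) ∈ Y)
    (h : IsNewAt (M * l' * l' * l * l) l' (iota (M * l' * l') l v)) (j : Fin 3) :
    IsNewAt (M * l' * l') l' (v j) := by
  rw [isNewAt_mul]
  intro i
  have h1 := Pii_sw22_iota hl hl' hne i v
  rw [h (M * l * l) (sw22_lev M l' l) i] at h1
  exact hinj _ (fun j => hv i j) h1.symm j

end Comm

end Fermat.Agent.ML.Tower
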