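import Fermat.Agent.ML.Count.GrowAll

/-!
# ML / Tower / Abs : abstract complements to `RIB.Grow.Hyp`

* `Hyp_ker_A_exact` : `A v = 0 ⟹ v = (v₀, -T v₀, v₀)`, `(l-1) v₀ = 0`;
* `Hyp_fix_eq_xv` : the `τ`-fixed new classes are the `x_v`, `(l-1) v = 0`;
* `card_le_sq` : `f Y ≤ F`, `Y ∩ ker f ≤ F` ⟹ `#Y ≤ #F²`;
* `card_torS_pow` : `X` `p`-divisible ⟹ `#X[p^a] = #X[p]^a`.
-/

set_option autoImplicit false

namespace Fermat.Agent.ML.Tower

open Fermat.Agent.RIB.Grow Fermat.Agent.RIB.Grow.Hyp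

section Tors

variable {G : Type*} [AddCommGroup G]

theorem eq_zero_of_coprime_smul {p c k : ℕ} (hc : Nat.Coprime c p) {v : G} (hk : p ^ k • v = 0)
    (hv : c • v = 0) : v = 0 := by
  have h1 : addOrderOf v ∣ p ^ k := addOrderOf_dvd_of_nsmul_eq_zero hk
  have h2 : addOrderOf v ∣ c := addOrderOf_dvd_of_nsmul_eq_zero hv
  have h3 : addOrderOf v ∣ Nat.gcd c (p ^ k) := Nat.dvd_gcd h2 h1
  rw [Nat.Coprime.pow_right k hc] at h3
  exact AddMonoid.addOrderOf_eq_one_iff.1 (Nat.dvd_one.1 h3)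

/-- `X[m]`. -/
def torS (X : AddSubgroup G) (m : ℕ) : AddSubgroup G := X ⊓ (nsmulAddMonoidHom m).ker

theorem mem_torS {X : AddSubgroup G} {m : ℕ} {x : G} : x ∈ torS X m ↔ x ∈ X ∧ m • x = 0 := Iff.rfl

theorem card_le_sq (Y Fx : AddSubgroup G) [Finite Fx] (f : G →+ G) (h1 : ∀ y ∈ Y, f y ∈ Fx)
    (h2 : ∀ y ∈ Y, f y = 0 → y ∈ Fx) : Nat.card Y ≤ Nat.card Fx ^ 2 := by
  let g : Y →+ Fx := (f.comp Y.subtype).codRestrict Fx fun y => h1 y y.2
  have e1 : Nat.card Y = Nat.card (Y ⧸ g.ker) * Nat.card g.ker :=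
    AddSubgroup.card_eq_card_quotient_mul_card_addSubgroup _
  have e2 : Nat.card (Y ⧸ g.ker) = Nat.card g.range :=
    Nat.card_congr (QuotientAddGroup.quotientKerEquivRange g).toEquiv
  have e3 : Nat.card g.range ≤ Nat.card Fx :=
    Nat.card_le_card_of_injective _ Subtype.val_injective
  have e4 : Nat.card g.ker ≤ Nat.card Fx := by
    refine Nat.card_le_card_of_injective
      (fun y : g.ker => (⟨y.1.1, h2 y.1.1 y.1.2 (congrArg Subtype.val y.2)⟩ : Fx)) ?_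
    intro a b hab
    exact Subtype.ext (Subtype.ext (Subtype.mk.inj hab))
  rw [e1, e2, pow_two]
  exact Nat.mul_le_mul e3 e4

theorem card_torS_pow (X : AddSubgroup G) (p : ℕ) (hdiv : ∀ x ∈ X, ∃ y ∈ X, p • y = x) (a : ℕ) :
    Nat.card (torS X (p ^ a)) = Nat.card (torS X p) ^ a := by
  induction a with
  | zero =>
    rw [pow_zero (Nat.card _)]
    have : Subsingleton (torS X (p ^ 0)) := ⟨fun x y => Subtype.ext (by
      have hx : 1 • x.1 = 0 := x.2.2
      have hy : 1 • y.1 = 0 := y.2.2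
      rw [one_smul] at hx hy
      rw [hx, hy])⟩
    exact Nat.card_unique
  | succ a ih =>
    let g : torS X (p ^ (a + 1)) →+ torS X (p ^ a) :=
      ((nsmulAddMonoidHom p).comp (torS X (p ^ (a + 1))).subtype).codRestrict _ fun x =>
        ⟨X.nsmul_mem x.2.1 p, by
          have hx : p ^ (a + 1) • x.1 = 0 := x.2.2
          show p ^ a • (p • x.1) = 0
          rw [← mul_smul, ← pow_succ]
          exact hx⟩
    have hg : Function.Surjective g := fun y => by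
      obtain ⟨x, hx, hxy⟩ := hdiv y.1 y.2.1
      refine ⟨⟨x, hx, ?_⟩, Subtype.ext hxy⟩
      show p ^ (a + 1) • x = 0
      rw [pow_succ, mul_smul, hxy]
      exact y.2.2
    have e1 : Nat.card (torS X (p ^ (a + 1))) =
        Nat.card (torS X (p ^ (a + 1)) ⧸ g.ker) * Nat.card g.ker :=
      AddSubgroup.card_eq_card_quotient_mul_card_addSubgroup _
    have e2 : Nat.card (torS X (p ^ (a + 1)) ⧸ g.ker) = Nat.card (torS X (p ^ a)) :=
      Nat.card_congr (QuotientAddGroup.quotientKerEquivOfSurjective g hg).toEquiv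
    have e3 : Nat.card g.ker = Nat.card (torS X p) := by
      refine Nat.card_congr
        { toFun := fun y => ⟨y.1.1, y.1.2.1, congrArg Subtype.val y.2⟩
          invFun := fun x => ⟨⟨x.1, x.2.1, ?_⟩, Subtype.ext x.2.2⟩
          left_inv := fun y => rfl
          right_inv := fun x => rfl }
      show p ^ (a + 1) • x.1 = 0
      rw [pow_succ, mul_smul, show p • x.1 = 0 from x.2.2, smul_zero]
    rw [e1, e2, e3, ih, pow_succ]

end Tors

section Hyp

variable {V W : Type*} [AddCommGroup V] [AddCommGroup W]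
  {p l n : ℕ} {T : V →+ V} {io : Fin 3 → V →+ W} {Pi : Fin 3 → W →+ V} {τ : W →+ W}

theorem Hyp_coprime_l (h : Hyp p l n T io Pi τ) : Nat.Coprime l p := by
  have h1 : p ∣ l - 1 := (dvd_pow_self p (by have := h.hn; omega)).trans h.hdvd
  rw [Nat.coprime_comm, h.hp.coprime_iff_not_dvd]
  intro h2
  have h3 : p ∣ 1 := by
    have := (Nat.dvd_sub h2 h1)
    rwa [show l - (l - 1) = 1 by have := h.hl; omega] at this
  exact h.hp.one_lt.ne' (Nat.dvd_one.1 h3)

theorem Hyp_coprime_l1 (h : Hyp p l n T io Pi τ) (hp2 : p ≠ 2) : Nat.Coprime (l + 1) p := by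
  have h1 : p ∣ l - 1 := (dvd_pow_self p (by have := h.hn; omega)).trans h.hdvd
  rw [Nat.coprime_comm, h.hp.coprime_iff_not_dvd]
  intro h2
  have h3 : p ∣ 2 := by
    have := (Nat.dvd_sub h2 h1)
    rwa [show l + 1 - (l - 1) = 2 by have := h.hl; omega] at this
  exact hp2 ((Nat.prime_dvd_prime_iff_eq h.hp Nat.prime_two).1 h3)

/-- **(S1)** -/
theorem Hyp_ker_A_exact (h : Hyp p l n T io Pi τ) (hp2 : p ≠ 2) (v : Fin 3 → V)
    (hv : ∀ i, Pi i (io 0 (v 0) + io 1 (v 1) + io 2 (v 2)) = 0) :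
    v 2 = v 0 ∧ v 1 = - T (v 0) ∧ (l - 1) • v 0 = 0 := by
  have hcl := Hyp_coprime_l h
  have hcl1 := Hyp_coprime_l1 h hp2
  obtain ⟨m, rfl⟩ : ∃ m, l = m + 1 := ⟨l - 1, by have := h.hl; omega⟩
  have E0 := hv 0
  have E1 := hv 1
  have E2 := hv 2
  rw [map_add, map_add, h.diag, h.adj01, h.far02] at E0
  rw [map_add, map_add, h.diag, h.adj10, h.adj12] at E1
  rw [map_add, map_add, h.diag, h.adj21, h.far20] at E2
  have h02 : v 0 - v 2 = 0 := by
    refine h.unit' _ ?_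
    rw [map_sub, map_sub]
    have : ((m + 1 + 1) ^ 2) • (v 0 - v 2) - (T (T (v 0)) - T (T (v 2)))
        = (((m + 1) * (m + 1 + 1)) • v 0 + (m + 1) • T (v 1) + (T (T (v 2)) - (m + 1 + 1) • v 2))
          - (T (T (v 0)) - (m + 1 + 1) • v 0 + (m + 1) • T (v 1)
            + ((m + 1) * (m + 1 + 1)) • v 2) := by module
    rw [this, E0, E2, sub_zero]
  have h2 : v 2 = v 0 := (sub_eq_zero.1 h02).symm
  rw [h2] at E0 E1
  have TE1 := congrArg T E1
  rw [map_add, map_add, map_nsmul, map_nsmul, map_zero] at TE1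
  have h0 : m • v 0 = 0 := by
    refine h.unit' _ ?_
    rw [map_nsmul, map_nsmul]
    have : ((m + 1 + 1) ^ 2) • (m • v 0) - m • T (T (v 0))
        = (m + 2) • (((m + 1) * (m + 1 + 1)) • v 0 + (m + 1) • T (v 1)
            + (T (T (v 0)) - (m + 1 + 1) • v 0))
          - ((m + 1) • T (T (v 0)) + ((m + 1) * (m + 1 + 1)) • T (v 1)
            + (m + 1) • T (T (v 0))) := by module
    rw [this, E0, TE1]; simp
  have hT0 : m • T (v 0) = 0 := by rw [← map_nsmul, h0, map_zero]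
  refine ⟨h2, ?_, by simpa using h0⟩
  obtain ⟨k, hk⟩ := h.Vtors (v 1 + T (v 0))
  have h3 : ((m + 1) * (m + 1 + 1)) • (v 1 + T (v 0)) = 0 := by
    have : ((m + 1) * (m + 1 + 1)) • (v 1 + T (v 0))
        = ((m + 1) • T (v 0) + ((m + 1) * (m + 1 + 1)) • v 1 + (m + 1) • T (v 0))
          + (m + 1) • (m • T (v 0)) := by module
    rw [this, E1, hT0]; simp
  have h4 := eq_zero_of_coprime_smul (Nat.Coprime.mul_left hcl hcl1) hk h3
  exact eq_neg_of_add_eq_zero_left h4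

/-- **(S2)** -/
theorem Hyp_fix_eq_xv (h : Hyp p l n T io Pi τ) (hp2 : p ≠ 2) (x : W) (hτ : τ x = x)
    (hx : ∀ i, Pi i x = 0) : ∃ v : V, (l - 1) • v = 0 ∧ x = xv T io v := by
  obtain ⟨v, rfl⟩ := h.fix x hτ hx
  obtain ⟨h2, h1, h0⟩ := Hyp_ker_A_exact h hp2 v hx
  refine ⟨v 0, h0, ?_⟩
  rw [xv_apply, h2, h1, map_neg, sub_eq_add_neg]

end Hyp

end Fermat.Agent.ML.Tower
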