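import Fermat.Agent.ML.Tower.Def
import Fermat.Agent.ML.Weil.Inst

/-!
# ML / Tower / Fam : `[NEXT]` for the order-free tower

* `Ctx p S θ Lev Q ν` : the per-level inputs on `thetaPart` (CTRL, RHO-ord, UNIT) for the levels `N` with `Lev N` and the
  Taylor–Wiles primes `l ∈ Q`, `p^(ν l) ‖ l - 1`.
* `Fam p S θ Lev Q XX` : the family axioms (board #2577) for `XX`.
* `Adm N t` : every `l ∈ t` divides `N` exactly twice.
* `fam_newPart` : **[NEXT]** `N ↦ newPart XX N t` is again a family, for the levels with `Adm N t` and the primes of `Q \ t`.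
-/

set_option autoImplicit false
set_option linter.unusedSectionVars false
set_option linter.style.haveILetI false
set_option linter.unusedVariables false

noncomputable section

open AlgebraicCurve ModularCurve

namespace Fermat.Agent.ML.Tower

open Fermat.Agent.RIB Fermat.Agent.GAL Fermat.Agent.GAL.PC Fermat.Agent.ML.Weil

local notation "Qbar" => AlgebraicClosure ℚ
local notation "GQ" => (AlgebraicClosure ℚ ≃ₐ[ℚ] AlgebraicClosure ℚ)

/-- the per-level inputs. -/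
structure Ctx (p : ℕ) (S : Set ℕ) (θ : ℕ → ℤ) (Lev : ℕ → Prop) (Q : Set ℕ) (ν : ℕ → ℕ) : Prop where
  hp : p.Prime
  hp2 : p ≠ 2
  prime : ∀ l ∈ Q, l.Prime
  hν : ∀ l ∈ Q, 1 ≤ ν l
  hdvd : ∀ l ∈ Q, p ^ ν l ∣ l - 1
  hex : ∀ l ∈ Q, ¬ p ^ (ν l + 1) ∣ l - 1
  up : ∀ N l : ℕ, Lev N → l ∈ Q → ¬ l ∣ N → Lev (N * l * l)
  down : ∀ N l : ℕ, l ∈ Q → Lev (N * l * l) → Lev N
  hS : ∀ N : ℕ, Lev N → ∀ r : ℕ, r.Prime → r ∉ S → ¬ r ∣ N * p
  surj : ∀ (N l : ℕ) [NeZero N] [NeZero l], Lev N → l ∈ Q → ¬ l ∣ N →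
    ∀ A : ValuationSubring Qbar, A.LiesOverPrime l →
    ∀ x ∈ thetaPart (N * l * l) p S θ, (∀ τ ∈ A.inertiaSubgroupIn ℚ, τ • x = x) →
      ∃ v : Fin 3 → JZero N, (∀ i, v i ∈ thetaPart N p S θ) ∧ iota N l v = x
  inj : ∀ (N l : ℕ) [NeZero N] [NeZero l], Lev N → l ∈ Q → ¬ l ∣ N →
    ∀ v : Fin 3 → JZero N, (∀ i, v i ∈ thetaPart N p S θ) → iota N l v = 0 → ∀ i, v i = 0
  rho : ∀ (N l : ℕ) [NeZero N] [NeZero l], Lev N → l ∈ Q → ¬ l ∣ N →
    ∀ A : ValuationSubring Qbar, A.LiesOverPrime l →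
    ∀ τ ∈ A.inertiaSubgroupIn ℚ, ∀ x ∈ thetaPart (N * l * l) p S θ, τ ^ (p ^ ν l) • x = x
  unit : ∀ (N l : ℕ) [NeZero N] [NeZero l] (hl : l.Prime), Lev N → l ∈ Q → ¬ l ∣ N →
    ∀ v ∈ thetaPart N p S θ, p • v = 0 →
      ((l + 1) ^ 2) • v - heckeOperatorBar N ⟨l, hl⟩ (heckeOperatorBar N ⟨l, hl⟩ v) = 0 → v = 0

/-- the family axioms. -/
structure Fam (p : ℕ) (S : Set ℕ) (θ : ℕ → ℤ) (Lev : ℕ → Prop) (Q : Set ℕ)
    (XX : ∀ (N : ℕ) [NeZero N], AddSubgroup (JZero N)) : Prop where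
  le : ∀ (N : ℕ) [NeZero N], Lev N → XX N ≤ thetaPart N p S θ
  gal : ∀ (N : ℕ) [NeZero N], Lev N → ∀ σ : GQ, ∀ x ∈ XX N, σ • x ∈ XX N
  hecke : ∀ (N : ℕ) [NeZero N], Lev N → ∀ r : Nat.Primes, ¬ (r : ℕ) ∣ N * p →
    ∀ x ∈ XX N, heckeOperatorBar N r x ∈ XX N
  div : ∀ (N : ℕ) [NeZero N], Lev N → ∀ x ∈ XX N, ∃ y ∈ XX N, p • y = x
  io : ∀ (N l : ℕ) [NeZero N] [NeZero l], Lev N → l ∈ Q → ¬ l ∣ N →
    ∀ i, ∀ v ∈ XX N, iot N l i v ∈ XX (N * l * l)
  Pi : ∀ (N l : ℕ) [NeZero N] [NeZero l], Lev N → l ∈ Q → ¬ l ∣ N →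
    ∀ i, ∀ x ∈ XX (N * l * l), Pii N l i x ∈ XX N
  refl : ∀ (N l : ℕ) [NeZero N] [NeZero l], Lev N → l ∈ Q → ¬ l ∣ N →
    ∀ v : Fin 3 → JZero N, (∀ i, v i ∈ thetaPart N p S θ) → iota N l v ∈ XX (N * l * l) →
      ∀ i, v i ∈ XX N
  onto : ∀ (N l : ℕ) [NeZero N] [NeZero l], Lev N → l ∈ Q → ¬ l ∣ N →
    ∀ (k : ℕ) (v : Fin 3 → JZero N), (∀ i, v i ∈ XX N) → (∀ i, p ^ k • v i = 0) →
      ∃ x ∈ XX (N * l * l), p ^ k • x = 0 ∧ ∀ i, Pii N l i x = v i

/-- every `l ∈ t` divides `N` exactly twice. -/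
def Adm (N : ℕ) (t : Finset ℕ) : Prop := ∀ l ∈ t, ∃ M : ℕ, N = M * l * l ∧ ¬ l ∣ M

theorem Adm.mono {N : ℕ} {t t' : Finset ℕ} (h : Adm N t') (ht : t ⊆ t') : Adm N t :=
  fun l hl => h l (ht hl)

theorem adm_empty (N : ℕ) : Adm N ∅ := fun l hl => absurd hl (Finset.notMem_empty l)

theorem Adm.up {N : ℕ} {t : Finset ℕ} (h : Adm N t) (ht : ∀ l' ∈ t, l'.Prime) {l : ℕ}
    (hl : l.Prime) (hlt : l ∉ t) : Adm (N * l * l) t := fun l' hl' => by
  obtain ⟨M, rfl, hM⟩ := h l' hl'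
  refine ⟨M * l * l, by ring, fun hd => ?_⟩
  have hne : l' ≠ l := fun h' => hlt (h' ▸ hl')
  have hnd : ¬ l' ∣ l := fun h' => hne ((Nat.prime_dvd_prime_iff_eq (ht l' hl') hl).1 h')
  rcases ((ht l' hl').dvd_mul).1 hd with h1 | h1
  · rcases ((ht l' hl').dvd_mul).1 h1 with h2 | h2
    · exact hM h2
    · exact hnd h2
  · exact hnd h1

theorem Adm.down {N : ℕ} {t : Finset ℕ} {l : ℕ} (h : Adm (N * l * l) t)
    (ht : ∀ l' ∈ t, l'.Prime) (hl : l.Prime) (hlt : l ∉ t) : Adm N t := fun l' hl' => by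
  obtain ⟨M, hM, hM'⟩ := h l' hl'
  have hp' := ht l' hl'
  have hne : l' ≠ l := fun h' => hlt (h' ▸ hl')
  have hcop : Nat.Coprime (l' * l') (l * l) :=
    Nat.Coprime.mul_left (Nat.Coprime.mul_right ((Nat.coprime_primes hp' hl).2 hne)
      ((Nat.coprime_primes hp' hl).2 hne)) (Nat.Coprime.mul_right ((Nat.coprime_primes hp' hl).2 hne)
      ((Nat.coprime_primes hp' hl).2 hne))
  have h1 : l' * l' ∣ N * (l * l) := ⟨M, by rw [← mul_assoc, hM]; ring⟩
  obtain ⟨M₂, rfl⟩ := hcop.dvd_of_dvd_mul_right h1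
  refine ⟨M₂, by ring, fun hd => hM' ?_⟩
  have h2 : M = M₂ * l * l := by
    refine Nat.eq_of_mul_eq_mul_right hp'.pos (Nat.eq_of_mul_eq_mul_right hp'.pos ?_)
    rw [← hM]; ring
  rw [h2]
  exact (hd.mul_right l).mul_right l

theorem neZero_of_mul {N M l : ℕ} [NeZero N] (h : N = M * l * l) : NeZero M :=
  ⟨by rintro rfl; exact NeZero.ne N (by rw [h]; simp)⟩

variable {p : ℕ} {S : Set ℕ} {θ : ℕ → ℤ} {Lev : ℕ → Prop} {Q : Set ℕ} {ν : ℕ → ℕ}
  {XX : ∀ (N : ℕ) [NeZero N], AddSubgroup (JZero N)}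

theorem Ctx.ne_p (C : Ctx p S θ Lev Q ν) {l : ℕ} (hl : l ∈ Q) : p ≠ l := by
  rintro rfl
  have h1 : p ∣ p - 1 := (dvd_pow_self p (by have := C.hν p hl; omega)).trans (C.hdvd p hl)
  have := Nat.le_of_dvd (by have := C.hp.two_le; omega) h1
  have := C.hp.two_le
  omega

theorem Ctx.hS' (C : Ctx p S θ Lev Q ν) {N l : ℕ} (hN : Lev N) (hl : l ∈ Q) (hlN : ¬ l ∣ N) :
    ∀ r : ℕ, r.Prime → r ∉ S → ¬ r ∣ N * l * l * p := C.hS _ (C.up N l hN hl hlN)

section Direct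

variable (C : Ctx p S θ Lev Q ν) (F : Fam p S θ Lev Q XX) {t : Finset ℕ} (ht : ∀ l ∈ t, l ∈ Q)

include F in
theorem newPart_le_theta {N : ℕ} [NeZero N] (hN : Lev N) :
    newPart XX N t ≤ thetaPart N p S θ := (newPart_le N t).trans (F.le N hN)

include F in
theorem newPart_gal {N : ℕ} [NeZero N] (hN : Lev N) (σ : GQ) {x : JZero N}
    (hx : x ∈ newPart XX N t) : σ • x ∈ newPart XX N t :=
  ⟨F.gal N hN σ x hx.1, fun l hl => (hx.2 l hl).smul σ⟩

include F in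
theorem newPart_hecke {N : ℕ} [NeZero N] (hN : Lev N) (r : Nat.Primes) (hr : ¬ (r : ℕ) ∣ N * p)
    {x : JZero N} (hx : x ∈ newPart XX N t) : heckeOperatorBar N r x ∈ newPart XX N t :=
  ⟨F.hecke N hN r hr x hx.1, fun l hl => (hx.2 l hl).hecke (F.le N hN hx.1).1 r hr⟩

include C F ht in
theorem newPart_io {N l : ℕ} [NeZero N] [NeZero l] (hN : Lev N) (hA : Adm N t) (hl : l ∈ Q)
    (hlt : l ∉ t) (hlN : ¬ l ∣ N) (i : Fin 3) {v : JZero N} (hv : v ∈ newPart XX N t) :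
    iot N l i v ∈ newPart XX (N * l * l) t := by
  refine ⟨F.io N l hN hl hlN i v hv.1, fun l' hl' => ?_⟩
  obtain ⟨M, rfl, -⟩ := hA l' hl'
  haveI : NeZero M := neZero_of_mul (N := M * l' * l') (l := l') rfl
  haveI : NeZero l' := ⟨(C.prime l' (ht l' hl')).ne_zero⟩
  exact isNewAt_iot (C.prime l hl) (C.prime l' (ht l' hl')) (fun h => hlt (h ▸ hl')) i
    (hv.2 l' hl')

include C F ht in
theorem newPart_Pi {N l : ℕ} [NeZero N] [NeZero l] (hN : Lev N) (hA : Adm N t) (hl : l ∈ Q)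
    (hlN : ¬ l ∣ N) (i : Fin 3) {x : JZero (N * l * l)} (hx : x ∈ newPart XX (N * l * l) t) :
    Pii N l i x ∈ newPart XX N t := by
  refine ⟨F.Pi N l hN hl hlN i x hx.1, fun l' hl' => ?_⟩
  obtain ⟨M, rfl, -⟩ := hA l' hl'
  haveI : NeZero M := neZero_of_mul (N := M * l' * l') (l := l') rfl
  haveI : NeZero l' := ⟨(C.prime l' (ht l' hl')).ne_zero⟩
  exact isNewAt_Pii i (hx.2 l' hl')

include C F ht in
theorem newPart_refl {N l : ℕ} [NeZero N] [NeZero l] (hN : Lev N) (hA : Adm N t) (hl : l ∈ Q)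
    (hlt : l ∉ t) (hlN : ¬ l ∣ N) (v : Fin 3 → JZero N) (hv : ∀ i, v i ∈ thetaPart N p S θ)
    (h : iota N l v ∈ newPart XX (N * l * l) t) (j : Fin 3) : v j ∈ newPart XX N t := by
  refine ⟨F.refl N l hN hl hlN v hv h.1 j, fun l' hl' => ?_⟩
  obtain ⟨M, rfl, -⟩ := hA l' hl'
  haveI : NeZero M := neZero_of_mul (N := M * l' * l') (l := l') rfl
  haveI : NeZero l' := ⟨(C.prime l' (ht l' hl')).ne_zero⟩
  have hM : Lev M := C.down M l' (ht l' hl') hN
  have hlM : ¬ l ∣ M := fun hd => hlN ((hd.mul_right l').mul_right l')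
  exact isNewAt_of_iota (C.prime l hl) (C.prime l' (ht l' hl')) (fun h => hlt (h ▸ hl'))
    (thetaPart M p S θ) (C.inj M l hM hl hlM) v
    (fun i j => Pii_mem_thetaPart (C.hS _ hN) i (hv j)) (h.2 l' hl') j

end Direct

section Ind

variable (C : Ctx p S θ Lev Q ν) (F : Fam p S θ Lev Q XX)

include C F in
/-- divisibility and (DIV) for the new parts, by induction on `t`. -/
theorem newPart_div_onto (t : Finset ℕ) (ht : ∀ l ∈ t, l ∈ Q) :
    ∀ (N : ℕ) [NeZero N], Lev N → Adm N t →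
      (∀ x ∈ newPart XX N t, ∃ y ∈ newPart XX N t, p • y = x) ∧
      ∀ (l : ℕ) [NeZero l], l ∈ Q → l ∉ t → ¬ l ∣ N → ∀ (k : ℕ) (v : Fin 3 → JZero N),
        (∀ i, v i ∈ newPart XX N t) → (∀ i, p ^ k • v i = 0) →
        ∃ x ∈ newPart XX (N * l * l) t, p ^ k • x = 0 ∧ ∀ i, Pii N l i x = v i := by
  induction t using Finset.induction_on with
  | empty =>
    intro N _ hN _
    simp only [newPart_empty]
    exact ⟨F.div N hN, fun l _ hl _ hlN => F.onto N l hN hl hlN⟩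
  | insert l' t' hl't' ih =>
    intro N _ hN hA
    have ht' : ∀ l ∈ t', l ∈ Q := fun l hl => ht l (Finset.mem_insert_of_mem hl)
    have hl'Q : l' ∈ Q := ht l' (Finset.mem_insert_self _ _)
    have hl'p := C.prime l' hl'Q
    have ihh := ih ht'
    obtain ⟨M, rfl, hM⟩ := hA l' (Finset.mem_insert_self _ _)
    haveI : NeZero M := neZero_of_mul (N := M * l' * l') (l := l') rfl
    haveI : NeZero l' := ⟨hl'p.ne_zero⟩
    have hLM : Lev M := C.down M l' hl'Q hN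
    have hAN : Adm (M * l' * l') t' := hA.mono (Finset.subset_insert _ _)
    have hAM : Adm M t' := hAN.down (fun l hl => C.prime l (ht' l hl)) hl'p hl't'
    obtain ⟨divN, ontoN⟩ := ihh (M * l' * l') hN hAN
    obtain ⟨divM, ontoM⟩ := ihh M hLM hAM
    constructor
    · intro x hx
      rw [mem_newPart_insert_mul] at hx
      obtain ⟨y, hy, hy0, hpy⟩ := div_ker_of_onto_tors p (newPart XX (M * l' * l') t')
        (newPart XX M t') (Pii M l')
        (fun i c hc => newPart_Pi C F ht' hLM hAM hl'Q hM i hc) divN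
        (fun v hv hpv => by
          obtain ⟨c, hc, hpc, hcv⟩ := ontoM l' hl'Q hl't' hM 1 v hv (by simpa using hpv)
          exact ⟨c, hc, by simpa using hpc, hcv⟩) x hx.1 hx.2
      exact ⟨y, mem_newPart_insert_mul.2 ⟨hy, hy0⟩, hpy⟩
    · intro l _ hl hlt hlN k w hw hpw
      have hlt' : l ∉ t' := fun h => hlt (Finset.mem_insert_of_mem h)
      have hne : l ≠ l' := fun h => hlt (h ▸ Finset.mem_insert_self _ _)
      have hlp := C.prime l hl
      obtain ⟨A, hA'⟩ := S54.exists_liesOverPrime hl'p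
      have hgen := gen_im (n := ν l') C.hp hl'p (C.ne_p hl'Q) hM hA' (newPart XX M t')
        (newPart XX (M * l' * l') t')
        (fun v hv => (newPart_le_theta F hLM hv).1)
        (fun τ _ x hx => newPart_gal F hN τ hx)
        (iot M l') (Pii M l') (fun i σ v => iot_smul M l' i σ v)
        (fun i σ x => Pii_smul M l' i σ x)
        (fun i v hv => newPart_io C F ht' hLM hAM hl'Q hl't' hM i hv)
        (fun i x hx => newPart_Pi C F ht' hLM hAM hl'Q hM i hx)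
        (fun v hv h0 => C.inj M l' hLM hl'Q hM v (fun i => newPart_le_theta F hLM (hv i)) h0)
        (fun x hx hfix => by
          obtain ⟨v, hv, hvx⟩ := C.surj M l' hLM hl'Q hM A hA' x (newPart_le_theta F hN hx) hfix
          exact ⟨v, newPart_refl C F ht' hLM hAM hl'Q hl't' hM v hv (hvx ▸ hx), hvx⟩)
        (fun τ hτ x hx => C.rho M l' hLM hl'Q hM A hA' τ hτ x (newPart_le_theta F hN hx))
        k (fun v hv hpv => ontoM l' hl'Q hl't' hM k v hv hpv)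
      have hlB' : ¬ l' ∣ M * l * l * p := by
        intro hd
        have hnd : ¬ l' ∣ l := fun h' => hne ((Nat.prime_dvd_prime_iff_eq hl'p hlp).1 h').symm
        rcases (hl'p.dvd_mul).1 hd with h1 | h1
        · rcases (hl'p.dvd_mul).1 h1 with h2 | h2
          · rcases (hl'p.dvd_mul).1 h2 with h3 | h3
            · exact hM h3
            · exact hnd h3
          · exact hnd h2
        · exact C.ne_p hl'Q ((Nat.prime_dvd_prime_iff_eq hl'p C.hp).1 h1).symm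
      obtain ⟨y, hy, hpy, hy0, hyw⟩ := next_div hl'p hlB' hA' (newPart XX (M * l' * l') t')
        (newPart XX (M * l' * l' * l * l) t')
        (fun τ _ x hx => newPart_gal F (C.up _ l hN hl hlN) τ hx)
        (Pii M l') (fun i => (Pii (M * l * l) l' i).comp (sw22 M l' l).toAddMonoidHom)
        (Pii (M * l' * l') l)
        (fun i σ x => by
          show Pii (M * l * l) l' i (sw22 M l' l (σ • x)) = σ • Pii (M * l * l) l' i (sw22 M l' l x)
          rw [castJ_smul, Pii_smul])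
        (fun j σ x => Pii_smul _ _ j σ x) k hgen
        (fun b hb hpb => ontoN l hl hlt' hlN k b hb hpb)
        w (fun j => (mem_newPart_insert_mul.1 (hw j)).1) hpw
        (fun j i => (mem_newPart_insert_mul.1 (hw j)).2 i)
      refine ⟨y, mem_newPart_insert.2 ⟨hy, ?_⟩, hpy, hyw⟩
      intro M' _ _ h i
      have hM' : M' = M * l * l := by
        refine Nat.eq_of_mul_eq_mul_right hl'p.pos (Nat.eq_of_mul_eq_mul_right hl'p.pos ?_)
        rw [← h]; ring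
      subst hM'
      exact hy0 i

include C F in
/-- **[NEXT]** : the new parts form a family. -/
theorem fam_newPart (t : Finset ℕ) (ht : ∀ l ∈ t, l ∈ Q) :
    Fam p S θ (fun N => Lev N ∧ Adm N t) (Q \ (↑t : Set ℕ)) (fun N _ => newPart XX N t) where
  le := fun N _ hN => newPart_le_theta F hN.1
  gal := fun N _ hN σ x hx => newPart_gal F hN.1 σ hx
  hecke := fun N _ hN r hr x hx => newPart_hecke F hN.1 r hr hx
  div := fun N _ hN => (newPart_div_onto C F t ht N hN.1 hN.2).1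
  io := fun N l _ _ hN hl hlN i v hv =>
    newPart_io C F ht hN.1 hN.2 hl.1 (fun h => hl.2 (Finset.mem_coe.2 h)) hlN i hv
  Pi := fun N l _ _ hN hl hlN i x hx => newPart_Pi C F ht hN.1 hN.2 hl.1 hlN i hx
  refl := fun N l _ _ hN hl hlN v hv h =>
    newPart_refl C F ht hN.1 hN.2 hl.1 (fun h => hl.2 (Finset.mem_coe.2 h)) hlN v hv h
  onto := fun N l _ _ hN hl hlN =>
    (newPart_div_onto C F t ht N hN.1 hN.2).2 l hl.1 (fun h => hl.2 (Finset.mem_coe.2 h)) hlN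

end Ind

end Fermat.Agent.ML.Tower
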