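import Fermat.Agent.ML.Tower.Main
import Fermat.Agent.ML.Low.Main.PerLevel
import Fermat.Agent.RIB.WeilJ
import Fermat.Agent.RIB.Grow.Div

/-!
# ML / Tower / Inst : the order-free tower for `XX = thetaPart`, from `MCtx`

* `TWSet p T S θ Q` : `Q` is a set of Taylor–Wiles primes (`S ⊇ T ∪ Q`);  `LevS p S N` : `4 ∣ N` and the primes of `N p` are in `S`;
* `ctx_of`, `fam_theta` : the context `Ctx` and the family `thetaPart`;
* `MTW.twSet`, `lvl_eq_prod_image`, `MTW.levS`, `MTW.adm` : the dictionary with `MTW`, `lvl L₀ (extP qv) t`, `cutS T qv`.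
-/

set_option autoImplicit false
set_option linter.unusedSectionVars false
set_option linter.style.haveILetI false
set_option linter.unusedVariables false

noncomputable section

open AlgebraicCurve ModularCurve

namespace Fermat.Agent.ML.Tower

open Fermat.Agent.RIB Fermat.Agent.GAL Fermat.Agent.GAL.PC

local notation "Qbar" => AlgebraicClosure ℚ
local notation "GQ" => (AlgebraicClosure ℚ ≃ₐ[ℚ] AlgebraicClosure ℚ)
local notation "M₂" => Matrix (Fin 2) (Fin 2)

/-- a set of Taylor–Wiles primes. -/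
structure TWSet (p : ℕ) (T S : Finset ℕ) (θ : ℕ → ℤ) (Q : Set ℕ) : Prop where
  hTS : T ⊆ S
  prime : ∀ l ∈ Q, l.Prime
  notT : ∀ l ∈ Q, l ∉ T
  memS : ∀ l ∈ Q, l ∈ S
  one : ∀ l ∈ Q, p ∣ l - 1
  disc : ∀ l ∈ Q, IsCoprime (p : ℤ) (θ l ^ 2 - 4)

/-- the levels. -/
def LevS (p : ℕ) (S : Finset ℕ) (N : ℕ) : Prop :=
  4 ∣ N ∧ ∀ r : ℕ, r.Prime → r ∣ N * p → r ∈ S

/-- `p^(nuQ p l) ‖ l - 1`. -/
def nuQ (p l : ℕ) : ℕ := padicValNat p (l - 1)

variable {p : ℕ} [Fact p.Prime] {T S : Finset ℕ} {θ : ℕ → ℤ} {Q : Set ℕ}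
  {rbar0 : GQ →* M₂ (ZMod p)}

theorem LevS.up (H : TWSet p T S θ Q) {N l : ℕ} (hN : LevS p S N) (hl : l ∈ Q) :
    LevS p S (N * l * l) := by
  refine ⟨(hN.1.mul_right l).mul_right l, fun r hr hd => ?_⟩
  have h1 : r ∣ (N * p) * (l * l) := by
    rwa [show N * p * (l * l) = N * l * l * p by ring]
  rcases (hr.dvd_mul).1 h1 with h2 | h2
  · exact hN.2 r hr h2
  · have h3 : r ∣ l := (hr.dvd_mul.1 h2).elim id id
    rw [(Nat.prime_dvd_prime_iff_eq hr (H.prime l hl)).1 h3]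
    exact H.memS l hl

theorem LevS.down (H : TWSet p T S θ Q) (h2T : 2 ∈ T) {N l : ℕ} (hl : l ∈ Q)
    (hN : LevS p S (N * l * l)) : LevS p S N := by
  refine ⟨?_, fun r hr hd => hN.2 r hr ?_⟩
  · have hl2 : l ≠ 2 := fun h => H.notT l hl (h ▸ h2T)
    have hc : Nat.Coprime 2 l := (Nat.coprime_primes Nat.prime_two (H.prime l hl)).2 hl2.symm
    have hc4 : Nat.Coprime 4 (l * l) := by
      have h1 : Nat.Coprime (2 ^ 2) l := Nat.Coprime.pow_left 2 hc
      exact Nat.Coprime.mul_right h1 h1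
    have h4 : 4 ∣ N * (l * l) := by rw [← mul_assoc]; exact hN.1
    exact hc4.dvd_of_dvd_mul_right h4
  · exact hd.trans (Nat.mul_dvd_mul_right ((Dvd.intro _ rfl).mul_right l) p)

theorem TWSet.mstep (H : TWSet p T S θ Q) {N l : ℕ} (hN : LevS p S N) (hl : l ∈ Q)
    (hlN : ¬ l ∣ N) : MStep p T θ S N l (nuQ p l) := by
  have h1 : l - 1 ≠ 0 := by
    have := (H.prime l hl).two_le
    omega
  exact
    { hl := H.prime l hl
      hlT := H.notT l hl
      hTS := H.hTS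
      hlL := hlN
      rigid := hN.1
      hS := (hN.up H hl).2
      hν := (padicValNat_dvd_iff_le h1).1 (by rw [pow_one]; exact H.one l hl)
      hdvd := pow_padicValNat_dvd
      hex := pow_succ_padicValNat_not_dvd h1
      disc := H.disc l hl }

/-- the context. -/
theorem ctx_of (EC : MCtx p T θ rbar0) (H : TWSet p T S θ Q) :
    Ctx p (↑S : Set ℕ) θ (LevS p S) Q (nuQ p) where
  hp := Fact.out
  hp2 := EC.hp2
  prime := H.prime
  hν := fun l hl => by
    have h1 : l - 1 ≠ 0 := by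
      have := (H.prime l hl).two_le
      omega
    exact (padicValNat_dvd_iff_le h1).1 (by rw [pow_one]; exact H.one l hl)
  hdvd := fun l _ => pow_padicValNat_dvd
  hex := fun l hl => by
    have h1 : l - 1 ≠ 0 := by
      have := (H.prime l hl).two_le
      omega
    exact pow_succ_padicValNat_not_dvd h1
  up := fun N l hN hl _ => hN.up H hl
  down := fun N l hl hN => hN.down H EC.two_mem hl
  hS := fun N hN r hr hrS hd => hrS (Finset.mem_coe.2 (hN.2 r hr hd))
  surj := fun N l _ _ hN hl hlN A hA => Low.ctrl_surj EC (H.mstep hN hl hlN) hA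
  inj := fun N l _ _ hN hl hlN v hv h0 i => by
    rw [Low.ctrl_inj EC (H.mstep hN hl hlN) v hv h0]
    rfl
  rho := fun N l _ _ hN hl hlN A hA => Low.rho_ord EC (H.mstep hN hl hlN) hA
  unit := fun N l _ _ hl' hN hl hlN => Low.unit_step EC (H.mstep hN hl hlN)

/-- the family `thetaPart`. -/
theorem fam_theta (EC : MCtx p T θ rbar0) (H : TWSet p T S θ Q) :
    Fam p (↑S : Set ℕ) θ (LevS p S) Q (fun N _ => thetaPart N p (↑S : Set ℕ) θ) where
  le := fun N _ _ => le_rfl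
  gal := fun N _ _ σ x hx => smul_mem_thetaPart σ hx
  hecke := fun N _ _ r _ x hx => hecke_mem_thetaPart r hx
  div := fun N _ _ => thetaPart_divisible N (Fact.out : p.Prime).pos _ θ
  io := fun N l _ _ hN hl hlN i v hv => iot_mem_thetaPart ((ctx_of EC H).hS' hN hl hlN) i hv
  Pi := fun N l _ _ hN hl hlN i x hx => Pii_mem_thetaPart ((ctx_of EC H).hS' hN hl hlN) i hx
  refl := fun N l _ _ _ _ _ v hv _ => hv
  onto := fun N l _ _ hN hl hlN k v hv hpv =>
    WA.exists_Pii_eq Fact.out k ((ctx_of EC H).hS' hN hl hlN)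
      (fun w hw _ => (ctx_of EC H).inj N l hN hl hlN w hw) v hv hpv

/-! ### product levels -/

theorem adm_of_prod (t : Finset ℕ) (ht : ∀ l ∈ t, l.Prime) (L₀ : ℕ) (hL : ∀ l ∈ t, ¬ l ∣ L₀) :
    Adm (L₀ * ∏ l ∈ t, (l * l)) t := fun l hl => by
  refine ⟨L₀ * ∏ l' ∈ t.erase l, (l' * l'), ?_, fun hd => ?_⟩
  · rw [← Finset.mul_prod_erase t (fun l => l * l) hl]; ring
  · rcases ((ht l hl).dvd_mul).1 hd with h1 | h1
    · exact hL l hl h1
    · obtain ⟨l', hl', h2⟩ := (Prime.dvd_finsetProd_iff (ht l hl).prime _).1 h1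
      have h3 : l ∣ l' := ((ht l hl).dvd_mul.1 h2).elim id id
      have h4 := (Nat.prime_dvd_prime_iff_eq (ht l hl) (ht l' (Finset.mem_of_mem_erase hl'))).1 h3
      exact Finset.ne_of_mem_erase hl' h4.symm

/-- the set of the Taylor–Wiles primes. -/
def qSet {t : ℕ} (qv : Fin t → Nat.Primes) : Finset ℕ :=
  Finset.univ.image fun i => ((qv i : Nat.Primes) : ℕ)

theorem mem_qSet {t : ℕ} {qv : Fin t → Nat.Primes} {l : ℕ} :
    l ∈ qSet qv ↔ ∃ i, ((qv i : Nat.Primes) : ℕ) = l := by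
  simp [qSet]

theorem lvl_eq_prod_qSet (L₀ : ℕ) {t : ℕ} {qv : Fin t → Nat.Primes} (hinj : Function.Injective qv) :
    lvl L₀ (extP qv) t = L₀ * ∏ l ∈ qSet qv, (l * l) := by
  rw [lvl_eq_prod, qSet, Finset.prod_image (fun i _ j _ h => hinj (Subtype.ext h)),
    ← Fin.prod_univ_eq_prod_range (fun j => extP qv j * extP qv j) t]
  congr 1
  exact Finset.prod_congr rfl fun i _ => by rw [extP_of_lt]

theorem card_qSet {t : ℕ} {qv : Fin t → Nat.Primes} (hinj : Function.Injective qv) :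
    (qSet qv).card = t := by
  rw [qSet, Finset.card_image_of_injective _ (fun i j h => hinj (Subtype.ext h)),
    Finset.card_univ, Fintype.card_fin]

section MTW

variable {L₀ t n : ℕ} {qv : Fin t → Nat.Primes}

theorem _root_.Fermat.Agent.ML.MTW.twSet (h : MTW p T θ L₀ t n qv) :
    TWSet p T (cutS T qv) θ (↑(qSet qv) : Set ℕ) where
  hTS := subset_cutS T qv
  prime := fun l hl => by
    obtain ⟨i, rfl⟩ := mem_qSet.1 (Finset.mem_coe.1 hl)
    exact (qv i).2
  notT := fun l hl => by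
    obtain ⟨i, rfl⟩ := mem_qSet.1 (Finset.mem_coe.1 hl)
    exact h.notT i
  memS := fun l hl => by
    obtain ⟨i, rfl⟩ := mem_qSet.1 (Finset.mem_coe.1 hl)
    exact mem_cutS_qv T qv i
  one := fun l hl => by
    obtain ⟨i, rfl⟩ := mem_qSet.1 (Finset.mem_coe.1 hl)
    exact (dvd_pow_self p (Nat.succ_ne_zero n)).trans (h.pow i)
  disc := fun l hl => by
    obtain ⟨i, rfl⟩ := mem_qSet.1 (Finset.mem_coe.1 hl)
    exact h.disc i

theorem _root_.Fermat.Agent.ML.MTW.levS_base (h : MTW p T θ L₀ t n qv) :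
    LevS p (cutS T qv) L₀ :=
  ⟨h.rigid, fun r hr hd => subset_cutS T qv (h.lev r hr hd)⟩

theorem _root_.Fermat.Agent.ML.MTW.not_dvd (h : MTW p T θ L₀ t n qv) :
    ∀ l ∈ qSet qv, ¬ l ∣ L₀ := fun l hl hd => by
  obtain ⟨i, rfl⟩ := mem_qSet.1 hl
  exact h.notT i (h.lev _ (qv i).2 (hd.mul_right p))

theorem _root_.Fermat.Agent.ML.MTW.adm (h : MTW p T θ L₀ t n qv) :
    Adm (lvl L₀ (extP qv) t) (qSet qv) := by
  rw [lvl_eq_prod_qSet L₀ h.inj]
  exact adm_of_prod _ (fun l hl => h.twSet.prime l (Finset.mem_coe.2 hl)) L₀ h.not_dvd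

theorem _root_.Fermat.Agent.ML.MTW.levS (h : MTW p T θ L₀ t n qv) :
    LevS p (cutS T qv) (lvl L₀ (extP qv) t) := by
  refine ⟨h.rigid.trans (dvd_lvl _ _ _), fun r hr hd => ?_⟩
  rcases (hr.dvd_mul).1 hd with h1 | h1
  · rcases dvd_lvl_cases_lt t hr h1 with h2 | ⟨j, -, rfl⟩
    · exact subset_cutS T qv (h.lev r hr (h2.mul_right p))
    · exact mem_cutS_qv T qv j
  · exact subset_cutS T qv (h.lev r hr (h1.mul_left L₀))

end MTW

end Fermat.Agent.ML.Tower
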