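import Fermat.Agent.ML.Tower.Step

/-!
# ML / Tower / Main : the order-free Taylor–Wiles tower

`XX` a family, `t ⊆ Q` a finite set of Taylor–Wiles primes, `N' = L₀ ∏_{l ∈ t} l l`, `X := newPart XX N' t`.

* `tower_div` : `X` is `p`-divisible;
* `tower_norm` : `∑_{j < p^(ν l)} τ_l^j = 0` on `X`, for EVERY `l ∈ t`;
* `tower_size` : `#XX(L₀)[p]^(∏ (p^(ν l) - 1)) ≤ #X[p]`,  `tower_size_pow` : the same for `X[p^a]`;
* `tower_soc` : `#X[CC] ≤ #XX(L₀)[CC]^(2^#t)`;
* `exists_taus` : the generators `τ_l` of the inertia groups (at the top level; `gen_descend`: they generate at all lower levels).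
-/

set_option autoImplicit false
set_option linter.unusedSectionVars false
set_option linter.style.haveILetI false
set_option linter.unusedVariables false

noncomputable section

open AlgebraicCurve ModularCurve

namespace Fermat.Agent.ML.Tower

open Fermat.Agent.RIB Fermat.Agent.GAL Fermat.Agent.GAL.PC Fermat.Agent.ML.Weil

local notation "Qbar" => AlgebraicClosure ℚ
local notation "GQ" => (AlgebraicClosure ℚ ≃ₐ[ℚ] AlgebraicClosure ℚ)

variable {p : ℕ} {S : Set ℕ} {θ : ℕ → ℤ} {Lev : ℕ → Prop} {Q : Set ℕ} {ν : ℕ → ℕ}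
  {XX : ∀ (N : ℕ) [NeZero N], AddSubgroup (JZero N)}

/-- the context for the levels which are admissible for `t` and the remaining primes. -/
theorem Ctx.restrict (C : Ctx p S θ Lev Q ν) (t : Finset ℕ) (ht : ∀ l ∈ t, l ∈ Q) :
    Ctx p S θ (fun N => Lev N ∧ Adm N t) (Q \ (↑t : Set ℕ)) ν where
  hp := C.hp
  hp2 := C.hp2
  prime := fun l hl => C.prime l hl.1
  hν := fun l hl => C.hν l hl.1
  hdvd := fun l hl => C.hdvd l hl.1
  hex := fun l hl => C.hex l hl.1
  up := fun N l hN hl hlN => ⟨C.up N l hN.1 hl.1 hlN,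
    hN.2.up (fun l' hl' => C.prime l' (ht l' hl')) (C.prime l hl.1)
      (fun h => hl.2 (Finset.mem_coe.2 h))⟩
  down := fun N l hl hN => ⟨C.down N l hl.1 hN.1,
    hN.2.down (fun l' hl' => C.prime l' (ht l' hl')) (C.prime l hl.1)
      (fun h => hl.2 (Finset.mem_coe.2 h))⟩
  hS := fun N hN => C.hS N hN.1
  surj := fun N l _ _ hN hl hlN => C.surj N l hN.1 hl.1 hlN
  inj := fun N l _ _ hN hl hlN => C.inj N l hN.1 hl.1 hlN
  rho := fun N l _ _ hN hl hlN => C.rho N l hN.1 hl.1 hlN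
  unit := fun N l _ _ hl' hN hl hlN => C.unit N l hl' hN.1 hl.1 hlN

theorem newPart_newPart_singleton (N' : ℕ) [NeZero N'] (t : Finset ℕ) (l : ℕ) :
    newPart (fun N _ => newPart XX N t) N' {l} = newPart XX N' (insert l t) := by
  ext x
  rw [mem_newPart_insert, mem_newPart]
  simp only [Finset.mem_singleton, forall_eq]

theorem Adm.not_dvd {M l : ℕ} {t : Finset ℕ} (h : Adm (M * l * l) t) (hl : l ∈ t) (hl0 : 0 < l) :
    ¬ l ∣ M := by
  obtain ⟨M₁, h1, h2⟩ := h l hl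
  have : M = M₁ := Nat.eq_of_mul_eq_mul_right hl0 (Nat.eq_of_mul_eq_mul_right hl0 h1)
  rwa [this]

section Tower

variable (C : Ctx p S θ Lev Q ν) (F : Fam p S θ Lev Q XX)

include C F in
theorem tower_div (t : Finset ℕ) (ht : ∀ l ∈ t, l ∈ Q) {N' : ℕ} [NeZero N'] (hN' : Lev N')
    (hA : Adm N' t) : ∀ x ∈ newPart XX N' t, ∃ y ∈ newPart XX N' t, p • y = x :=
  (newPart_div_onto C F t ht N' hN' hA).1

include C F in
/-- the norm of `τ_l` vanishes on the new part, for every `l ∈ t`. -/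
theorem tower_norm (t : Finset ℕ) (ht : ∀ l ∈ t, l ∈ Q) {N' : ℕ} [NeZero N'] (hN' : Lev N')
    (hA : Adm N' t) {l : ℕ} (hl : l ∈ t) {A : ValuationSubring Qbar} (hAl : A.LiesOverPrime l)
    (τ₀ : GQ) (hτ₀ : τ₀ ∈ A.inertiaSubgroupIn ℚ)
    (hgen : ∀ x ∈ thetaPart N' p S θ, p ^ (ν l + 1) • x = 0 → τ₀ • x = x →
      ∀ τ ∈ A.inertiaSubgroupIn ℚ, τ • x = x)
    (x : JZero N') (hx : x ∈ newPart XX N' t) :
    ∑ j ∈ Finset.range (p ^ ν l), τ₀ ^ j • x = 0 := by
  have hlp := C.prime l (ht l hl)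
  obtain ⟨M, rfl, hM⟩ := hA l hl
  haveI : NeZero M := neZero_of_mul (N := M * l * l) (l := l) rfl
  haveI : NeZero l := ⟨hlp.ne_zero⟩
  have ht' : ∀ l' ∈ t.erase l, l' ∈ Q := fun l' h => ht l' (Finset.mem_of_mem_erase h)
  have hAM : Adm M (t.erase l) :=
    (hA.mono (Finset.erase_subset l t)).down (fun l' h => C.prime l' (ht' l' h)) hlp
      (Finset.notMem_erase l t)
  have hx' : x ∈ newPart XX (M * l * l) (insert l (t.erase l)) := by
    rwa [Finset.insert_erase hl]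
  rw [mem_newPart_insert_mul] at hx'
  exact step_norm (C.restrict _ ht') (fam_newPart C F _ ht') (N := M) (l := l)
    ⟨C.down M l (ht l hl) hN', hAM⟩
    ⟨ht l hl, fun h => Finset.notMem_erase l t (Finset.mem_coe.1 h)⟩ hM hAl τ₀ hτ₀
    (fun y hy => hgen y (newPart_le_theta F hN' hy)) x hx'.1 hx'.2

include C F in
/-- **[SIZE]** -/
theorem tower_size (t : Finset ℕ) (ht : ∀ l ∈ t, l ∈ Q) :
    ∀ (L₀ N' : ℕ) [NeZero L₀] [NeZero N'], Lev N' → Adm N' t → N' = L₀ * ∏ l ∈ t, (l * l) →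
      Nat.card (torS (XX L₀) p) ^ (∏ l ∈ t, (p ^ ν l - 1)) ≤
        Nat.card (torS (newPart XX N' t) p) := by
  induction t using Finset.induction_on with
  | empty =>
    intro L₀ N' _ _ _ _ h
    rw [Finset.prod_empty, mul_one] at h
    subst h
    rw [Finset.prod_empty, pow_one, newPart_empty]
  | insert l t' hlt' ih =>
    intro L₀ N' _ _ hN' hA h
    have ht' : ∀ l' ∈ t', l' ∈ Q := fun l' h => ht l' (Finset.mem_insert_of_mem h)
    have hlQ : l ∈ Q := ht l (Finset.mem_insert_self _ _)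
    have hlp := C.prime l hlQ
    have h' : N' = (L₀ * ∏ l ∈ t', (l * l)) * l * l := by
      rw [h, Finset.prod_insert hlt']; ring
    obtain ⟨M, hMdef⟩ : ∃ M, M = L₀ * ∏ l ∈ t', (l * l) := ⟨_, rfl⟩
    rw [← hMdef] at h'
    subst h'
    haveI : NeZero M := neZero_of_mul (N := M * l * l) (l := l) rfl
    haveI : NeZero l := ⟨hlp.ne_zero⟩
    have hM : ¬ l ∣ M := hA.not_dvd (Finset.mem_insert_self _ _) hlp.pos
    have hLM : Lev M := C.down M l hlQ hN'
    have hAM : Adm M t' :=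
      (hA.mono (Finset.subset_insert l t')).down (fun l' h => C.prime l' (ht' l' h)) hlp hlt'
    have h1 := ih ht' L₀ M hLM hAM hMdef
    have h2 := step_size (C.restrict _ ht') (fam_newPart C F _ ht') (N := M) (l := l)
      ⟨hLM, hAM⟩ ⟨hlQ, fun h => hlt' (Finset.mem_coe.1 h)⟩ hM
    rw [newPart_newPart_singleton] at h2
    rw [Finset.prod_insert hlt', mul_comm, pow_mul]
    exact (Nat.pow_le_pow_left h1 _).trans h2

include C F in
/-- **[SIZE]** on `p^a`-torsion. -/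
theorem tower_size_pow (t : Finset ℕ) (ht : ∀ l ∈ t, l ∈ Q) (L₀ N' : ℕ) [NeZero L₀] [NeZero N']
    (hN' : Lev N') (hA : Adm N' t) (h : N' = L₀ * ∏ l ∈ t, (l * l)) (a : ℕ) :
    Nat.card (torS (XX L₀) p) ^ (a * ∏ l ∈ t, (p ^ ν l - 1)) ≤
      Nat.card (torS (newPart XX N' t) (p ^ a)) := by
  rw [card_torS_pow _ p (tower_div C F t ht hN' hA) a, mul_comm, pow_mul]
  exact Nat.pow_le_pow_left (tower_size C F t ht L₀ N' hN' hA h) a

include C in
/-- a generator of the inertia at the level `M l l` is a generator at the level `M`. -/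
theorem gen_descend {M l : ℕ} [NeZero M] [NeZero l] (hM : Lev M) (hl : l ∈ Q) (hlM : ¬ l ∣ M)
    (I : Subgroup GQ) (τ₀ : GQ) (k : ℕ)
    (h : ∀ x ∈ thetaPart (M * l * l) p S θ, k • x = 0 → τ₀ • x = x → ∀ σ ∈ I, σ • x = x) :
    ∀ x ∈ thetaPart M p S θ, k • x = 0 → τ₀ • x = x → ∀ σ ∈ I, σ • x = x := by
  intro x hx hkx hτx σ hσ
  have h1 := h (iot M l 0 x) (iot_mem_thetaPart (C.hS' hM hl hlM) 0 hx)
    (by rw [← map_nsmul, hkx, map_zero]) (by rw [← iot_smul, hτx]) σ hσ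
  rw [← iot_smul] at h1
  have h2 := C.inj M l hM hl hlM ![σ • x - x, 0, 0] (fun i => by
    fin_cases i
    · exact (thetaPart M p S θ).sub_mem (smul_mem_thetaPart σ hx) hx
    · exact (thetaPart M p S θ).zero_mem
    · exact (thetaPart M p S θ).zero_mem) (by
    rw [iota_apply']
    simp only [Matrix.cons_val_zero, Matrix.cons_val_one, Matrix.cons_val, map_zero, add_zero]
    rw [map_sub, h1, sub_self]) 0
  exact sub_eq_zero.1 h2

include C F in
/-- **[BASE] / [COGEN]** -/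
theorem tower_soc (Al : ℕ → ValuationSubring Qbar) (τ : ℕ → GQ) (CC : Set (GQ →₀ ℤ)) {m : ℕ}
    (hm : m ≠ 0)
    (hfin : ∀ (N : ℕ) [NeZero N] (y : JZero N), (∀ c ∈ CC, gop c y = 0) → m • y = 0)
    (t : Finset ℕ) (ht : ∀ l ∈ t, l ∈ Q) (hAl : ∀ l ∈ t, (Al l).LiesOverPrime l)
    (hτ : ∀ l ∈ t, τ l ∈ (Al l).inertiaSubgroupIn ℚ)
    (hz : ∀ l ∈ t, ∀ (N : ℕ) [NeZero N] (y : JZero N), (∀ c ∈ CC, gop c y = 0) →
      τ l • y + (τ l)⁻¹ • y = 2 • y)
    (hcomm : ∀ l ∈ t, ∀ c ∈ CC, ∀ (N : ℕ) [NeZero N], Lev N → ∀ y ∈ thetaPart N p S θ,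
      gop c (τ l • y) = τ l • gop c y) :
    ∀ (L₀ N' : ℕ) [NeZero L₀] [NeZero N'], Lev N' → Adm N' t → N' = L₀ * ∏ l ∈ t, (l * l) →
      (∀ l ∈ t, ∀ x ∈ thetaPart N' p S θ, p ^ (ν l + 1) • x = 0 → τ l • x = x →
        ∀ σ ∈ (Al l).inertiaSubgroupIn ℚ, σ • x = x) →
      Nat.card (cut (newPart XX N' t) CC) ≤ Nat.card (cut (XX L₀) CC) ^ (2 ^ t.card) := by
  induction t using Finset.induction_on with
  | empty =>
    intro L₀ N' _ _ _ _ h _
    rw [Finset.prod_empty, mul_one] at h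
    subst h
    rw [Finset.card_empty, pow_zero, pow_one, newPart_empty]
  | insert l t' hlt' ih =>
    intro L₀ N' _ _ hN' hA h hgen
    have ht' : ∀ l' ∈ t', l' ∈ Q := fun l' h => ht l' (Finset.mem_insert_of_mem h)
    have hlQ : l ∈ Q := ht l (Finset.mem_insert_self _ _)
    have hlp := C.prime l hlQ
    have h' : N' = (L₀ * ∏ l ∈ t', (l * l)) * l * l := by
      rw [h, Finset.prod_insert hlt']; ring
    obtain ⟨M, hMdef⟩ : ∃ M, M = L₀ * ∏ l ∈ t', (l * l) := ⟨_, rfl⟩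
    rw [← hMdef] at h'
    subst h'
    haveI : NeZero M := neZero_of_mul (N := M * l * l) (l := l) rfl
    haveI : NeZero l := ⟨hlp.ne_zero⟩
    have hM : ¬ l ∣ M := hA.not_dvd (Finset.mem_insert_self _ _) hlp.pos
    have hLM : Lev M := C.down M l hlQ hN'
    have hAM : Adm M t' :=
      (hA.mono (Finset.subset_insert l t')).down (fun l' h => C.prime l' (ht' l' h)) hlp hlt'
    have h1 := ih ht' (fun l' h => hAl l' (Finset.mem_insert_of_mem h))
      (fun l' h => hτ l' (Finset.mem_insert_of_mem h))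
      (fun l' h => hz l' (Finset.mem_insert_of_mem h))
      (fun l' h => hcomm l' (Finset.mem_insert_of_mem h)) L₀ M hLM hAM hMdef
      (fun l' h => gen_descend C hLM hlQ hM _ (τ l') _ (hgen l' (Finset.mem_insert_of_mem h)))
    haveI : Finite (cut (newPart XX M t') CC) := finite_cut _ CC hm (hfin M)
    have h2 := step_soc (C.restrict _ ht') (fam_newPart C F _ ht') (N := M) (l := l)
      ⟨hLM, hAM⟩ ⟨hlQ, fun h => hlt' (Finset.mem_coe.1 h)⟩ hM
      (hAl l (Finset.mem_insert_self _ _)) (τ l) (hτ l (Finset.mem_insert_self _ _))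
      (fun y hy => hgen l (Finset.mem_insert_self _ _) y (newPart_le_theta F hN' hy)) CC
      (hz l (Finset.mem_insert_self _ _) (M * l * l))
      (fun c hc y hy => hcomm l (Finset.mem_insert_self _ _) c hc (M * l * l) hN' y
        (newPart_le_theta F hN' hy))
    rw [newPart_newPart_singleton] at h2
    rw [Finset.card_insert_of_notMem hlt', pow_succ, pow_mul]
    exact h2.trans (Nat.pow_le_pow_left h1 2)

include C in
/-- the generators `τ_l`, at the top level. -/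
theorem exists_taus (t : Finset ℕ) (ht : ∀ l ∈ t, l ∈ Q) {N' : ℕ} [NeZero N'] (hN' : Lev N')
    (hA : Adm N' t) (m : ℕ) (hm : m ≠ 0) :
    ∃ (Al : ℕ → ValuationSubring Qbar) (τ : ℕ → GQ), ∀ l ∈ t, (Al l).LiesOverPrime l ∧
      τ l ∈ (Al l).inertiaSubgroupIn ℚ ∧
      ∀ x ∈ thetaPart N' p S θ, m • x = 0 → τ l • x = x →
        ∀ σ ∈ (Al l).inertiaSubgroupIn ℚ, σ • x = x := by
  have key : ∀ l ∈ t, ∃ (A : ValuationSubring Qbar) (τ₀ : GQ), A.LiesOverPrime l ∧
      τ₀ ∈ A.inertiaSubgroupIn ℚ ∧ ∀ x ∈ thetaPart N' p S θ, m • x = 0 → τ₀ • x = x →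
        ∀ σ ∈ A.inertiaSubgroupIn ℚ, σ • x = x := by
    intro l hl
    have hlp := C.prime l (ht l hl)
    obtain ⟨A, hAl⟩ := S54.exists_liesOverPrime hlp
    obtain ⟨M, rfl, hM⟩ := hA l hl
    haveI : NeZero M := neZero_of_mul (N := M * l * l) (l := l) rfl
    haveI : NeZero l := ⟨hlp.ne_zero⟩
    obtain ⟨τ₀, hτ₀, hgen⟩ := exists_tau0 hlp hAl (torS (thetaPart (M * l * l) p S θ) m)
      (fun τ _ x hx => ⟨smul_mem_thetaPart τ hx.1, by
        show m • (τ • x) = 0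
        rw [← gq_smul_nsmul, show m • x = 0 from hx.2]
        exact smul_zero (A := JZero (M * l * l)) τ⟩) m hm (fun x hx => hx.2) (p ^ ν l)
      (Nat.Coprime.pow_left _ ((Nat.coprime_primes C.hp hlp).2 (C.ne_p (ht l hl))))
      (fun τ hτ x hx => C.rho M l (C.down M l (ht l hl) hN') (ht l hl) hM A hAl τ hτ x hx.1)
    exact ⟨A, τ₀, hAl, hτ₀, fun x hx hmx => hgen x ⟨hx, hmx⟩⟩
  choose! Al τ h using key
  exact ⟨Al, τ, h⟩

end Tower

end Fermat.Agent.ML.Tower
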