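import Fermat.Agent.ML.Tower.Fam
import Fermat.Agent.ML.Tower.Abs
import Fermat.Agent.ML.TWFree.GrowFam

/-!
# ML / Tower / Step : one Taylor–Wiles step for a family

`XX` a family, `l ∈ Q`, `l ∤ N`, `K := newPart XX (N l l) {l}`.

* `gop c`, `c : GQ →₀ ℤ` : the operator `∑ c(g) g` on `J₀(N)`;  `cut X CC := {x ∈ X | ∀ c ∈ CC, gop c x = 0}`;
* `Fam.hyp` : the datum `RIB.Grow.Hyp` of the step;
* `step_norm` : `∑_{j < p^ν} τ₀^j = 0` on `K`;
* `step_size` : `#XX(N)[p]^(p^ν - 1) ≤ #K[p]`;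
* `step_soc` : `#K[CC] ≤ #XX(N)[CC]²`.
-/

set_option autoImplicit false
set_option linter.unusedSectionVars false
set_option linter.style.haveILetI false
set_option linter.unusedVariables false

noncomputable section

open AlgebraicCurve ModularCurve

namespace Fermat.Agent.ML.Tower

open Fermat.Agent.RIB Fermat.Agent.GAL Fermat.Agent.GAL.PC Fermat.Agent.ML.Weil

local notation "Qbar" => AlgebraicClosure ℚ
local notation "GQ" => (AlgebraicClosure ℚ ≃ₐ[ℚ] AlgebraicClosure ℚ)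

/-! ### Galois operators -/

section Gop

variable {N N' : ℕ} [NeZero N] [NeZero N']

/-- the operator `∑ c(g) g`. -/
def gop (c : GQ →₀ ℤ) : JZero N →+ JZero N :=
  c.sum fun g n => n • DistribSMul.toAddMonoidHom (JZero N) g

theorem gop_apply (c : GQ →₀ ℤ) (x : JZero N) : gop c x = c.sum fun g n => n • (g • x) := by
  unfold gop Finsupp.sum
  rw [AddMonoidHom.finsetSum_apply]
  rfl

theorem map_gop (u : JZero N →+ JZero N') (hu : ∀ (σ : GQ) x, u (σ • x) = σ • u x)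
    (c : GQ →₀ ℤ) (x : JZero N) : u (gop c x) = gop c (u x) := by
  rw [gop_apply, gop_apply]
  unfold Finsupp.sum
  rw [map_sum]
  exact Finset.sum_congr rfl fun g _ => by rw [map_zsmul, hu]

theorem gop_mem (X : AddSubgroup (JZero N)) (hX : ∀ σ : GQ, ∀ x ∈ X, σ • x ∈ X) (c : GQ →₀ ℤ)
    {x : JZero N} (hx : x ∈ X) : gop c x ∈ X := by
  rw [gop_apply]
  exact X.sum_mem fun g _ => X.zsmul_mem (hX g x hx) _

/-- `X[CC]`. -/
def cut (X : AddSubgroup (JZero N)) (CC : Set (GQ →₀ ℤ)) : AddSubgroup (JZero N) where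
  carrier := {x | x ∈ X ∧ ∀ c ∈ CC, gop c x = 0}
  zero_mem' := ⟨X.zero_mem, fun c _ => map_zero _⟩
  add_mem' := fun hx hy => ⟨X.add_mem hx.1 hy.1, fun c hc => by
    rw [map_add, hx.2 c hc, hy.2 c hc, add_zero]⟩
  neg_mem' := fun hx => ⟨X.neg_mem hx.1, fun c hc => by rw [map_neg, hx.2 c hc, neg_zero]⟩

theorem mem_cut {X : AddSubgroup (JZero N)} {CC : Set (GQ →₀ ℤ)} {x : JZero N} :
    x ∈ cut X CC ↔ x ∈ X ∧ ∀ c ∈ CC, gop c x = 0 := Iff.rfl

theorem finite_cut (X : AddSubgroup (JZero N)) (CC : Set (GQ →₀ ℤ)) {m : ℕ} (hm : m ≠ 0)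
    (h : ∀ y : JZero N, (∀ c ∈ CC, gop c y = 0) → m • y = 0) : Finite (cut X CC) :=
  Set.finite_coe_iff.2 ((finite_torsion_JZero N m hm).subset fun x hx => h x hx.2)

end Gop

variable {p : ℕ} {S : Set ℕ} {θ : ℕ → ℤ} {Lev : ℕ → Prop} {Q : Set ℕ} {ν : ℕ → ℕ}
  {XX : ∀ (N : ℕ) [NeZero N], AddSubgroup (JZero N)}

section Step

variable (C : Ctx p S θ Lev Q ν) (F : Fam p S θ Lev Q XX) {N l : ℕ} [NeZero N] [NeZero l]
  (hN : Lev N) (hl : l ∈ Q) (hlN : ¬ l ∣ N)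

include C hl hlN in
theorem Ctx.not_dvd_mul_p : ¬ l ∣ N * p := fun h =>
  ((C.prime l hl).dvd_mul.1 h).elim hlN fun h' =>
    C.ne_p hl ((Nat.prime_dvd_prime_iff_eq (C.prime l hl) C.hp).1 h').symm

/-- the datum of the step. -/
theorem Fam.hyp {A : ValuationSubring Qbar} (hA : A.LiesOverPrime l) (τ₀ : GQ)
    (hτ₀ : τ₀ ∈ A.inertiaSubgroupIn ℚ)
    (hgen : ∀ x ∈ XX (N * l * l), p ^ (ν l + 1) • x = 0 → τ₀ • x = x →
      ∀ τ ∈ A.inertiaSubgroupIn ℚ, τ • x = x) :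
    Grow.Hyp p l (ν l)
      (TX (C.prime l hl) (XX N) (F.hecke N hN ⟨l, C.prime l hl⟩ (C.not_dvd_mul_p hl hlN)))
      (ioX (XX N) (XX (N * l * l)) (F.io N l hN hl hlN))
      (PiX (XX N) (XX (N * l * l)) (F.Pi N l hN hl hlN))
      (tauX (XX (N * l * l)) τ₀ (F.gal _ (C.up N l hN hl hlN) τ₀)) :=
  hyp_of_sub C.hp C.hp2 (C.prime l hl) hlN (C.hν l hl) (C.hdvd l hl) (C.hex l hl) hA (XX N)
    (XX (N * l * l)) (F.le N hN) (F.le _ (C.up N l hN hl hlN)) (F.io N l hN hl hlN)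
    (F.Pi N l hN hl hlN) _ (F.refl N l hN hl hlN) (F.div N hN) (F.div _ (C.up N l hN hl hlN))
    (fun v hv => by
      obtain ⟨x, hx, hpx, hxv⟩ := F.onto N l hN hl hlN 1 v (fun i => (hv i).1)
        (fun i => by rw [pow_one]; exact (hv i).2)
      exact ⟨x, hx, by rwa [pow_one] at hpx, hxv⟩)
    (C.surj N l hN hl hlN A hA)
    (fun v hv => C.inj N l hN hl hlN v fun i => (hv i).1)
    (C.rho N l hN hl hlN A hA) (C.unit N l (C.prime l hl) hN hl hlN) τ₀ hτ₀ _ hgen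

include C F hN hl hlN in
/-- the norm of `τ₀` vanishes on the new part. -/
theorem step_norm {A : ValuationSubring Qbar} (hA : A.LiesOverPrime l) (τ₀ : GQ)
    (hτ₀ : τ₀ ∈ A.inertiaSubgroupIn ℚ)
    (hgen : ∀ x ∈ XX (N * l * l), p ^ (ν l + 1) • x = 0 → τ₀ • x = x →
      ∀ τ ∈ A.inertiaSubgroupIn ℚ, τ • x = x)
    (x : JZero (N * l * l)) (hx : x ∈ XX (N * l * l)) (hx0 : ∀ i, Pii N l i x = 0) :
    ∑ j ∈ Finset.range (p ^ ν l), τ₀ ^ j • x = 0 := by
  have H := F.hyp C hN hl hlN hA τ₀ hτ₀ hgen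
  have h1 := Hyp_norm_zero H ⟨x, hx⟩ (Grow.Hyp.mem_Wnew.2 fun i => Subtype.ext (hx0 i))
  have h2 := congrArg Subtype.val h1
  rw [AddSubgroup.val_finsetSum] at h2
  simpa only [tauX_iterate, AddSubgroup.coe_zero] using h2

theorem mem_newPart_singleton_mul {x : JZero (N * l * l)} :
    x ∈ newPart XX (N * l * l) {l} ↔ x ∈ XX (N * l * l) ∧ ∀ i, Pii N l i x = 0 := by
  rw [mem_newPart]
  simp only [Finset.mem_singleton, forall_eq, isNewAt_mul]

include C F hN hl hlN in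
/-- a generator of the inertia on `XX(N l l)[m]`. -/
theorem exists_gen {A : ValuationSubring Qbar} (hA : A.LiesOverPrime l) (m : ℕ) (hm : m ≠ 0) :
    ∃ τ₀ ∈ A.inertiaSubgroupIn ℚ, ∀ x ∈ XX (N * l * l), m • x = 0 → τ₀ • x = x →
      ∀ τ ∈ A.inertiaSubgroupIn ℚ, τ • x = x := by
  have hN' := C.up N l hN hl hlN
  obtain ⟨τ₀, hτ₀, hgen⟩ := exists_tau0 (C.prime l hl) hA (torS (XX (N * l * l)) m)
    (fun τ _ x hx => ⟨F.gal _ hN' τ x hx.1, by
      show m • (τ • x) = 0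
      rw [← gq_smul_nsmul, show m • x = 0 from hx.2]
      exact smul_zero (A := JZero (N * l * l)) τ⟩) m hm (fun x hx => hx.2) (p ^ ν l)
    (Nat.Coprime.pow_left _ ((Nat.coprime_primes C.hp (C.prime l hl)).2 (C.ne_p hl)))
    (fun τ hτ x hx => C.rho N l hN hl hlN A hA τ hτ x (F.le _ hN' hx.1))
  exact ⟨τ₀, hτ₀, fun x hx hmx => hgen x ⟨hx, hmx⟩⟩

include C F hN hl hlN in
/-- **[GROW-ALL]** for one step. -/
theorem step_size :
    Nat.card (torS (XX N) p) ^ (p ^ ν l - 1) ≤ Nat.card (torS (newPart XX (N * l * l) {l}) p) := by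
  obtain ⟨A, hA⟩ := S54.exists_liesOverPrime (C.prime l hl)
  obtain ⟨τ₀, hτ₀, hgen⟩ := exists_gen C F hN hl hlN hA (p ^ (ν l + 1))
    (pow_ne_zero _ C.hp.ne_zero)
  have H := F.hyp C hN hl hlN hA τ₀ hτ₀ hgen
  obtain ⟨-, hle⟩ := Hyp_grow_all H
  have e1 : {v : XX N | p • v = 0}.ncard = Nat.card (torS (XX N) p) := by
    rw [← Nat.card_coe_set_eq]
    exact Nat.card_congr
      { toFun := fun v => ⟨v.1.1, v.1.2, congrArg Subtype.val v.2⟩
        invFun := fun x => ⟨⟨x.1, x.2.1⟩, Subtype.ext x.2.2⟩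
        left_inv := fun v => rfl
        right_inv := fun x => rfl }
  have e2 : {x : Grow.Hyp.Wnew (PiX (XX N) (XX (N * l * l)) (F.Pi N l hN hl hlN)) |
      p • x = 0}.ncard = Nat.card (torS (newPart XX (N * l * l) {l}) p) := by
    rw [← Nat.card_coe_set_eq]
    exact Nat.card_congr
      { toFun := fun x => ⟨x.1.1.1, mem_newPart_singleton_mul.2 ⟨x.1.1.2, fun i =>
          congrArg Subtype.val (Grow.Hyp.mem_Wnew.1 x.1.2 i)⟩,
          congrArg (fun y => Subtype.val (Subtype.val y)) x.2⟩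
        invFun := fun x => ⟨⟨⟨x.1, (mem_newPart_singleton_mul.1 x.2.1).1⟩,
          Grow.Hyp.mem_Wnew.2 fun i => Subtype.ext ((mem_newPart_singleton_mul.1 x.2.1).2 i)⟩,
          Subtype.ext (Subtype.ext x.2.2)⟩
        left_inv := fun v => rfl
        right_inv := fun x => rfl }
  rw [e1, e2] at hle
  exact hle

/-- `x_v = ι(v, -T_l v, v)`. -/
def xvJ (N l : ℕ) [NeZero N] [NeZero l] (hl : l.Prime) : JZero N →+ JZero (N * l * l) :=
  iot N l 0 - (iot N l 1).comp (heckeOperatorBar N ⟨l, hl⟩).toAddMonoidHom + iot N l 2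

theorem xvJ_smul (hl : l.Prime) (σ : GQ) (x : JZero N) :
    xvJ N l hl (σ • x) = σ • xvJ N l hl x := by
  show iot N l 0 (σ • x) - iot N l 1 (heckeOperatorBar N ⟨l, hl⟩ (σ • x)) + iot N l 2 (σ • x) =
    σ • (iot N l 0 x - iot N l 1 (heckeOperatorBar N ⟨l, hl⟩ x) + iot N l 2 x)
  rw [← galHecke N ⟨l, hl⟩ σ x, iot_smul, iot_smul, iot_smul]
  rw [smul_add (A := JZero (N * l * l)), smul_sub (A := JZero (N * l * l))]

include C F hN hl hlN in
/-- **[BASE]/[COGEN]** for one step. -/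
theorem step_soc {A : ValuationSubring Qbar} (hA : A.LiesOverPrime l) (τ₀ : GQ)
    (hτ₀ : τ₀ ∈ A.inertiaSubgroupIn ℚ)
    (hgen : ∀ x ∈ XX (N * l * l), p ^ (ν l + 1) • x = 0 → τ₀ • x = x →
      ∀ τ ∈ A.inertiaSubgroupIn ℚ, τ • x = x)
    (CC : Set (GQ →₀ ℤ)) [Finite (cut (XX N) CC)]
    (hz : ∀ y : JZero (N * l * l), (∀ c ∈ CC, gop c y = 0) → τ₀ • y + τ₀⁻¹ • y = 2 • y)
    (hcomm : ∀ c ∈ CC, ∀ y ∈ XX (N * l * l), gop c (τ₀ • y) = τ₀ • gop c y) :
    Nat.card (cut (newPart XX (N * l * l) {l}) CC) ≤ Nat.card (cut (XX N) CC) ^ 2 := by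
  have hN' := C.up N l hN hl hlN
  have H := F.hyp C hN hl hlN hA τ₀ hτ₀ hgen
  set Fx : AddSubgroup (JZero (N * l * l)) := (cut (XX N) CC).map (xvJ N l (C.prime l hl)) with hFx
  have hsur : Function.Surjective
      (fun v : cut (XX N) CC => (⟨xvJ N l (C.prime l hl) v.1, ⟨v.1, v.2, rfl⟩⟩ : Fx)) := by
    rintro ⟨_, ⟨v, hv, rfl⟩⟩
    exact ⟨⟨v, hv⟩, rfl⟩
  haveI : Finite Fx := Finite.of_surjective _ hsur
  have hcard : Nat.card Fx ≤ Nat.card (cut (XX N) CC) := Nat.card_le_card_of_surjective _ hsur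
  -- the fixed classes
  have key : ∀ w ∈ XX (N * l * l), (∀ i, Pii N l i w = 0) → τ₀ • w = w →
      (∀ c ∈ CC, gop c w = 0) → w ∈ Fx := by
    intro w hw hw0 hτw hcw
    obtain ⟨v, -, hv⟩ := Hyp_fix_eq_xv H C.hp2 ⟨w, hw⟩ (Subtype.ext hτw)
      (fun i => Subtype.ext (hw0 i))
    have hv' : w = xvJ N l (C.prime l hl) v.1 := congrArg Subtype.val hv
    refine ⟨v.1, ⟨v.2, fun c hc => ?_⟩, hv'.symm⟩
    have h1 : xvJ N l (C.prime l hl) (gop c v.1) = 0 := by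
      rw [map_gop _ (xvJ_smul (C.prime l hl)), ← hv', hcw c hc]
    have h2 := H.xv_inj ⟨gop c v.1, gop_mem _ (F.gal N hN) c v.2⟩ (Subtype.ext h1)
    exact congrArg Subtype.val h2
  have h3 := card_le_sq (cut (newPart XX (N * l * l) {l}) CC) Fx
    (DistribSMul.toAddMonoidHom (JZero (N * l * l)) τ₀ - AddMonoidHom.id _)
    (fun y hy => by
      obtain ⟨hy1, hy0⟩ := mem_newPart_singleton_mul.1 hy.1
      show τ₀ • y - y ∈ Fx
      refine key _ ((XX (N * l * l)).sub_mem (F.gal _ hN' τ₀ y hy1) hy1) (fun i => ?_) ?_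
        (fun c hc => ?_)
      · rw [map_sub, Pii_smul, hy0 i, sub_zero]
        exact smul_zero (A := JZero N) τ₀
      · have h4 := congrArg (fun u => τ₀ • u) (hz y hy.2)
        simp only [smul_add (A := JZero (N * l * l)), smul_inv_smul] at h4
        rw [gq_smul_nsmul] at h4
        rw [smul_sub (A := JZero (N * l * l))]
        have h5 : τ₀ • τ₀ • y = 2 • τ₀ • y - y := eq_sub_of_add_eq h4
        rw [h5, two_smul]
        abel
      · rw [map_sub, hcomm c hc y hy1, hy.2 c hc, sub_zero]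
        exact smul_zero (A := JZero (N * l * l)) τ₀)
    (fun y hy h0 => by
      obtain ⟨hy1, hy0⟩ := mem_newPart_singleton_mul.1 hy.1
      exact key y hy1 hy0 (sub_eq_zero.1 h0) hy.2)
  exact h3.trans (Nat.pow_le_pow_left hcard 2)

end Step

end Fermat.Agent.ML.Tower
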